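/-
S56 / F / Lift / Gauge : ultrametric gauges on commutative `Qbar`-algebras.   (helper6)
TASK  S56/F-Lift-Newton (`IsGauge.newton_step`, `IsGauge.newton`).

Only `S55/Places/Norm.lean` (`nrm p`, `nrm_natCast_self : nrm p p = p⁻¹`, `nrm_natCast_le_one`,
`nrm_intCast_le_one`, `nrm_mul`, ...) and Mathlib (`add_pow`, `Nat.Prime.dvd_choose_self`).
-/
import Fermat.Agent.S55.Places.Norm

set_option autoImplicit false

noncomputable section

namespace Fermat.Agent.S56.F.Lift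

open Fermat.Agent.S55.Places

variable (p : ℕ) [Fact p.Prime]

/-- an ultrametric, submultiplicative gauge on a commutative `Qbar`-algebra. -/
structure IsGauge {A : Type*} [CommRing A] [Algebra Qbar A] (N : A → ℝ) : Prop where
  nonneg : ∀ a, 0 ≤ N a
  add : ∀ a b, N (a + b) ≤ max (N a) (N b)
  mul : ∀ a b, N (a * b) ≤ N a * N b
  smul : ∀ (c : Qbar) (a : A), N (c • a) = nrm p c * N a
  one : N 1 ≤ 1

variable {p} {A : Type*} [CommRing A] [Algebra Qbar A] {N : A → ℝ}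

theorem IsGauge.neg (hN : IsGauge p N) (a : A) : N (-a) = N a := by
  have h := hN.smul (-1) a
  rw [neg_one_smul, nrm_neg] at h
  have h1 : nrm p (1 : Qbar) = 1 := by simp [nrm]
  rw [h, h1, one_mul]

theorem IsGauge.sub (hN : IsGauge p N) (a b : A) : N (a - b) ≤ max (N a) (N b) := by
  rw [sub_eq_add_neg, ← hN.neg b]
  exact hN.add a (-b)

theorem IsGauge.sub_comm (hN : IsGauge p N) (a b : A) : N (a - b) = N (b - a) := by
  rw [← hN.neg (a - b), neg_sub]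

theorem IsGauge.pow_le (hN : IsGauge p N) (a : A) {r : ℝ} (h : N a ≤ r) (n : ℕ) (hn : n ≠ 0) :
    N (a ^ n) ≤ r ^ n := by
  induction n with
  | zero => exact absurd rfl hn
  | succ n ih =>
    rcases Nat.eq_zero_or_pos n with rfl | hpos
    · simpa using h
    · rw [pow_succ, pow_succ]
      exact (hN.mul _ _).trans (mul_le_mul (ih hpos.ne') h (hN.nonneg _)
        (pow_nonneg ((hN.nonneg a).trans h) _))

theorem IsGauge.pow_le_one (hN : IsGauge p N) {a : A} (h : N a ≤ 1) (n : ℕ) : N (a ^ n) ≤ 1 := by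
  rcases Nat.eq_zero_or_pos n with rfl | hpos
  · simpa using hN.one
  · simpa using hN.pow_le a h n hpos.ne'

theorem IsGauge.sum_le (hN : IsGauge p N) {ι : Type*} (s : Finset ι) (f : ι → A) {C : ℝ}
    (hC : 0 ≤ C) (h : ∀ i ∈ s, N (f i) ≤ C) : N (∑ i ∈ s, f i) ≤ C := by
  classical
  induction s using Finset.induction_on with
  | empty =>
    have h0 : N (0 : A) = 0 := by
      have := hN.smul 0 (0 : A)
      rw [zero_smul] at this
      rw [this]; simp [nrm]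
    simpa [h0] using hC
  | insert a s ha ih =>
    rw [Finset.sum_insert ha]
    exact (hN.add _ _).trans (max_le (h a (Finset.mem_insert_self a s))
      (ih fun i hi => h i (Finset.mem_insert_of_mem hi)))

theorem IsGauge.Gauge_natCast_mul (hN : IsGauge p N) (n : ℕ) (a : A) :
    N (a * (n : A)) = nrm p (n : Qbar) * N a := by
  rw [← hN.smul, Nat.cast_smul_eq_nsmul, nsmul_eq_mul, mul_comm]

theorem Gauge_rho_lt {ρ : ℝ} (_h0 : 0 ≤ ρ) (hρ : ρ ^ (p - 1) < nrm p (p : Qbar) ^ p) :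
    ρ < nrm p (p : Qbar) := by
  have hp2 : 2 ≤ p := (Fact.out : p.Prime).two_le
  have hp0 : (0 : ℝ) < p := by exact_mod_cast (Fact.out : p.Prime).pos
  have hp1 : (1 : ℝ) < p := by exact_mod_cast (Fact.out : p.Prime).one_lt
  have hπ0 : 0 < nrm p (p : Qbar) := by rw [nrm_natCast_self]; positivity
  have hπ1 : nrm p (p : Qbar) ≤ 1 := nrm_natCast_le_one p p
  have h1 : nrm p (p : Qbar) ^ p ≤ nrm p (p : Qbar) ^ (p - 1) :=
    pow_le_pow_of_le_one hπ0.le hπ1 (by omega)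
  exact lt_of_pow_lt_pow_left₀ (p - 1) hπ0.le (hρ.trans_le h1)

/-- **one Newton step for `T^p = 1`.**  `e := u^p - 1`, `u' := u - (p⁻¹ : Qbar) • (u * e)`
`= u * (1 - e/p)`.  Then `u'^p - 1 = (1+e) (1 - e/p)^p - 1 = - e² + (1+e) S`,
`S = ∑_{j=2}^{p} choose p j (-e/p)^j`.  `N(e²) ≤ ε² ≤ ε (ρ/|p|)` (`ρ ≤ ρ/|p|`);
for `2 ≤ j < p`: `p ∣ choose p j`, so the term has gauge `≤ |p| (ε/|p|)^j ≤ ε (ρ/|p|)`
(`ε/|p| ≤ ρ/|p| < 1`); for `j = p`: `ε^p/|p|^p ≤ ε ρ^(p-1)/|p|^p`. -/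
theorem IsGauge.newton_step (hN : IsGauge p N) {u : A} {ρ ε : ℝ} (hu : N u ≤ 1)
    (hρ : ρ ^ (p - 1) < nrm p (p : Qbar) ^ p) (hερ : ε ≤ ρ) (h : N (u ^ p - 1) ≤ ε) :
    N (u - (p : Qbar)⁻¹ • (u * (u ^ p - 1))) ≤ 1 ∧
    N ((u - (p : Qbar)⁻¹ • (u * (u ^ p - 1))) - u) ≤ ε / nrm p (p : Qbar) ∧
    N ((u - (p : Qbar)⁻¹ • (u * (u ^ p - 1))) ^ p - 1) ≤
      ε * max (ρ / nrm p (p : Qbar)) (ρ ^ (p - 1) / nrm p (p : Qbar) ^ p) := by
  have hpr : p.Prime := Fact.out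
  have hp2 : 2 ≤ p := hpr.two_le
  have hp0 : (0 : ℝ) < p := by exact_mod_cast hpr.pos
  have hpQ : (p : Qbar) ≠ 0 := by exact_mod_cast hpr.ne_zero
  set π : ℝ := nrm p (p : Qbar) with hπ
  have hπ0 : 0 < π := by rw [hπ, nrm_natCast_self]; positivity
  have hπ1 : π ≤ 1 := nrm_natCast_le_one p p
  have hε0 : 0 ≤ ε := (hN.nonneg _).trans h
  have hρ0 : 0 ≤ ρ := hε0.trans hερ
  have hρπ : ρ < π := Gauge_rho_lt hρ0 hρ
  set e : A := u ^ p - 1 with he
  set t : A := (p : Qbar)⁻¹ • e with ht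
  have hNt : N t ≤ ε / π := by
    rw [ht, hN.smul, nrm_inv, ← hπ, div_eq_inv_mul]
    exact mul_le_mul_of_nonneg_left h (inv_nonneg.2 hπ0.le)
  have hεπ1 : ε / π ≤ 1 := (div_le_one hπ0).2 (hερ.trans hρπ.le)
  have hεπ0 : 0 ≤ ε / π := div_nonneg hε0 hπ0.le
  have hNue : N ((p : Qbar)⁻¹ • (u * e)) ≤ ε / π := by
    rw [hN.smul, nrm_inv, ← hπ, div_eq_inv_mul]
    refine mul_le_mul_of_nonneg_left ?_ (inv_nonneg.2 hπ0.le)
    calc N (u * e) ≤ N u * N e := hN.mul _ _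
      _ ≤ 1 * ε := mul_le_mul hu h (hN.nonneg _) zero_le_one
      _ = ε := one_mul _
  set q : ℝ := max (ρ / π) (ρ ^ (p - 1) / π ^ p) with hq
  have hq1 : ρ / π ≤ q := le_max_left _ _
  have hq2 : ρ ^ (p - 1) / π ^ p ≤ q := le_max_right _ _
  have hq0 : 0 ≤ q := (div_nonneg hρ0 hπ0.le).trans hq1
  refine ⟨(hN.sub _ _).trans (max_le hu (hNue.trans hεπ1)), ?_, ?_⟩
  · rw [sub_sub_cancel_left, hN.neg]
    exact hNue
  -- the main estimate
  have hpt : t * (p : A) = e := by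
    rw [ht, mul_comm, ← nsmul_eq_mul, ← Nat.cast_smul_eq_nsmul Qbar, smul_smul,
      mul_inv_cancel₀ hpQ, one_smul]
  set S : A := ∑ m ∈ Finset.range (p - 1), (-t) ^ (m + 2) * (p.choose (m + 2) : A) with hS
  have hexp : (1 - t) ^ p = 1 - e + S := by
    have h3 : p + 1 = (p - 1) + 1 + 1 := by omega
    rw [sub_eq_neg_add, add_pow, h3, Finset.sum_range_succ', Finset.sum_range_succ']
    simp only [one_pow, mul_one, zero_add, pow_one, pow_zero, Nat.choose_one_right,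
      Nat.choose_zero_right, Nat.cast_one, neg_mul, hpt]
    rw [hS]
    ring
  have hu' : u - (p : Qbar)⁻¹ • (u * e) = u * (1 - t) := by
    rw [mul_sub u 1 t, mul_one, ht, mul_smul_comm]
  have hup : u ^ p = 1 + e := by rw [he]; ring
  have hmain : (u - (p : Qbar)⁻¹ • (u * e)) ^ p - 1 = -(e * e) + u ^ p * S := by
    rw [hu', mul_pow, hexp, hup]; ring
  have hNS : N S ≤ ε * q := by
    refine hN.sum_le _ _ (mul_nonneg hε0 hq0) (fun m hm => ?_)
    have hm' : m + 2 ≤ p := by have := Finset.mem_range.1 hm; omega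
    rw [hN.Gauge_natCast_mul]
    have hpow : N ((-t) ^ (m + 2)) ≤ (ε / π) ^ (m + 2) :=
      hN.pow_le _ (by rw [hN.neg]; exact hNt) _ (by omega)
    rcases hm'.lt_or_eq with hlt | heq
    · obtain ⟨c, hc⟩ := hpr.dvd_choose_self (by omega : m + 2 ≠ 0) hlt
      have h1 : nrm p ((p.choose (m + 2) : ℕ) : Qbar) ≤ π := by
        rw [hc, Nat.cast_mul, nrm_mul, ← hπ]
        exact mul_le_of_le_one_right hπ0.le (nrm_natCast_le_one p c)
      have h2 : (ε / π) ^ (m + 2) ≤ (ε / π) * (ρ / π) := by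
        calc (ε / π) ^ (m + 2) ≤ (ε / π) ^ 2 := pow_le_pow_of_le_one hεπ0 hεπ1 (by omega)
          _ = (ε / π) * (ε / π) := sq _
          _ ≤ (ε / π) * (ρ / π) :=
            mul_le_mul_of_nonneg_left ((div_le_div_iff_of_pos_right hπ0).2 hερ) hεπ0
      calc nrm p ((p.choose (m + 2) : ℕ) : Qbar) * N ((-t) ^ (m + 2))
          ≤ π * ((ε / π) * (ρ / π)) :=
            mul_le_mul h1 (hpow.trans h2) (hN.nonneg _) hπ0.le
        _ = ε * (ρ / π) := by field_simp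
        _ ≤ ε * q := mul_le_mul_of_nonneg_left hq1 hε0
    · rw [heq, Nat.choose_self, Nat.cast_one, nrm_one, one_mul]
      rw [heq] at hpow
      have h3 : (ε / π) ^ p = ε * (ε ^ (p - 1) / π ^ p) := by
        rw [div_pow, ← mul_div_assoc, ← pow_succ', Nat.sub_add_cancel (by omega)]
      calc N ((-t) ^ p) ≤ (ε / π) ^ p := hpow
        _ = ε * (ε ^ (p - 1) / π ^ p) := h3
        _ ≤ ε * (ρ ^ (p - 1) / π ^ p) := by
            refine mul_le_mul_of_nonneg_left ?_ hε0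
            exact (div_le_div_iff_of_pos_right (pow_pos hπ0 _)).2 (pow_le_pow_left₀ hε0 hερ _)
        _ ≤ ε * q := mul_le_mul_of_nonneg_left hq2 hε0
  rw [hmain]
  refine (hN.add _ _).trans (max_le ?_ ?_)
  · rw [hN.neg]
    calc N (e * e) ≤ N e * N e := hN.mul _ _
      _ ≤ ε * ρ := mul_le_mul h (h.trans hερ) (hN.nonneg _) hε0
      _ ≤ ε * (ρ / π) := by
          refine mul_le_mul_of_nonneg_left ?_ hε0
          rw [le_div_iff₀ hπ0]
          exact mul_le_of_le_one_right hρ0 hπ1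
      _ ≤ ε * q := mul_le_mul_of_nonneg_left hq1 hε0
  · calc N (u ^ p * S) ≤ N (u ^ p) * N S := hN.mul _ _
      _ ≤ 1 * (ε * q) := mul_le_mul (hN.pow_le_one hu p) hNS (hN.nonneg _) zero_le_one
      _ = ε * q := one_mul _

/-- **Newton iteration.**  Iterate `newton_step`: `ε_n ≤ ρ q^n`, `q := max (ρ/|p|) (ρ^(p-1)/|p|^p) < 1`
(`ρ < |p|` because `ρ^(p-1) < |p|^p ≤ |p|^(p-1)`), `N (u_n - u) ≤ ρ/|p|` by the ultrametric
inequality; choose `n` with `ρ q^n ≤ η` (`exists_pow_lt_of_lt_one`). -/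
theorem IsGauge.newton (hN : IsGauge p N) {u : A} {ρ η : ℝ} (hu : N u ≤ 1)
    (hρ : ρ ^ (p - 1) < nrm p (p : Qbar) ^ p) (h : N (u ^ p - 1) ≤ ρ) (hη : 0 < η) :
    ∃ u' : A, N u' ≤ 1 ∧ N (u' - u) ≤ ρ / nrm p (p : Qbar) ∧ N (u' ^ p - 1) ≤ η := by
  have hpr : p.Prime := Fact.out
  have hp0 : (0 : ℝ) < p := by exact_mod_cast hpr.pos
  set π : ℝ := nrm p (p : Qbar) with hπ
  have hπ0 : 0 < π := by rw [hπ, nrm_natCast_self]; positivity
  have hρ0 : 0 ≤ ρ := (hN.nonneg _).trans h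
  have hρπ : ρ < π := Gauge_rho_lt hρ0 hρ
  set q : ℝ := max (ρ / π) (ρ ^ (p - 1) / π ^ p) with hq
  have hq0 : 0 ≤ q := (div_nonneg hρ0 hπ0.le).trans (le_max_left _ _)
  have hq1 : q < 1 := max_lt ((div_lt_one hπ0).2 hρπ) ((div_lt_one (pow_pos hπ0 _)).2 hρ)
  have hN0 : N (0 : A) = 0 := by
    have := hN.smul 0 (0 : A)
    rw [zero_smul] at this
    rw [this]; simp [nrm]
  have key : ∀ n : ℕ, ∃ u' : A, N u' ≤ 1 ∧ N (u' - u) ≤ ρ / π ∧ N (u' ^ p - 1) ≤ ρ * q ^ n := by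
    intro n
    induction n with
    | zero =>
      refine ⟨u, hu, ?_, by simpa using h⟩
      rw [sub_self, hN0]
      exact div_nonneg hρ0 hπ0.le
    | succ n ih =>
      obtain ⟨v, hv1, hv2, hv3⟩ := ih
      have hle : ρ * q ^ n ≤ ρ := mul_le_of_le_one_right hρ0 (pow_le_one₀ hq0 hq1.le)
      obtain ⟨h1, h2, h3⟩ := hN.newton_step hv1 hρ hle hv3
      refine ⟨_, h1, ?_, ?_⟩
      · have hsplit : (v - (p : Qbar)⁻¹ • (v * (v ^ p - 1))) - u
            = ((v - (p : Qbar)⁻¹ • (v * (v ^ p - 1))) - v) + (v - u) := by ring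
        rw [hsplit]
        refine (hN.add _ _).trans (max_le (h2.trans ?_) hv2)
        exact (div_le_div_iff_of_pos_right hπ0).2 hle
      · rw [pow_succ, ← mul_assoc]
        exact h3
  obtain ⟨n, hn⟩ := exists_pow_lt_of_lt_one (div_pos hη (by linarith : 0 < ρ + 1)) hq1
  obtain ⟨u', h1, h2, h3⟩ := key n
  refine ⟨u', h1, h2, h3.trans ?_⟩
  calc ρ * q ^ n ≤ ρ * (η / (ρ + 1)) := mul_le_mul_of_nonneg_left hn.le hρ0
    _ = η * (ρ / (ρ + 1)) := by ring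
    _ ≤ η * 1 := by
        refine mul_le_mul_of_nonneg_left ?_ hη.le
        rw [div_le_one (by linarith)]
        linarith
    _ = η := mul_one _

end Fermat.Agent.S56.F.Lift

end
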