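/-
S56 / F / Lift / Pair : the group algebra `Qbar[G]` as the dual of the functions on `G`, and the gauge
attached to a comultiplication-closed set of integral functions.     (helper6)
TASK  S56/F-Lift-Pair.
-/
import Fermat.Agent.S56.F.Lift.Gauge
import Fermat.Agent.S19.A.Defs

set_option autoImplicit false

noncomputable section

namespace Fermat.Agent.S56.F.Lift

open Fermat.Agent.S55.Places

variable {G : Type} [AddCommGroup G]

/-- the pairing `⟨∑ c_x [x], f⟩ = ∑ c_x f(x)`. -/
def pair (c : AddMonoidAlgebra Qbar G) (f : G → Qbar) : Qbar := c.coeff.sum fun x a => a * f x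

theorem pair_single (x : G) (a : Qbar) (f : G → Qbar) :
    pair (AddMonoidAlgebra.single x a) f = a * f x := by
  unfold pair
  rw [AddMonoidAlgebra.coeff_single, Finsupp.sum_single_index (zero_mul _)]

theorem pair_zero (f : G → Qbar) : pair (0 : AddMonoidAlgebra Qbar G) f = 0 := by
  unfold pair
  rw [AddMonoidAlgebra.coeff_zero, Finsupp.sum_zero_index]

theorem pair_add (c d : AddMonoidAlgebra Qbar G) (f : G → Qbar) :
    pair (c + d) f = pair c f + pair d f := by
  unfold pair
  rw [AddMonoidAlgebra.coeff_add]
  exact Finsupp.sum_add_index' (fun _ => zero_mul _) (fun _ _ _ => add_mul _ _ _)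

theorem pair_neg (c : AddMonoidAlgebra Qbar G) (f : G → Qbar) : pair (-c) f = -pair c f := by
  have h := pair_add (-c) c f
  rw [neg_add_cancel, pair_zero] at h
  exact eq_neg_of_add_eq_zero_left h.symm

theorem pair_sub (c d : AddMonoidAlgebra Qbar G) (f : G → Qbar) :
    pair (c - d) f = pair c f - pair d f := by
  rw [sub_eq_add_neg, pair_add, pair_neg, sub_eq_add_neg]

theorem pair_smul (a : Qbar) (c : AddMonoidAlgebra Qbar G) (f : G → Qbar) :
    pair (a • c) f = a * pair c f := by
  induction c using AddMonoidAlgebra.induction_linear with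
  | zero => rw [smul_zero, pair_zero, mul_zero]
  | add x y hx hy => rw [smul_add, pair_add, pair_add, hx, hy, mul_add]
  | single m r =>
    rw [AddMonoidAlgebra.smul_single, pair_single, pair_single, smul_eq_mul, mul_assoc]

theorem pair_one (f : G → Qbar) : pair (1 : AddMonoidAlgebra Qbar G) f = f 0 := by
  rw [AddMonoidAlgebra.one_def, pair_single, one_mul]

theorem pair_fun_add (c : AddMonoidAlgebra Qbar G) (f g : G → Qbar) :
    pair c (f + g) = pair c f + pair c g := by
  unfold pair
  rw [← Finsupp.sum_add]
  exact Finsupp.sum_congr fun x _ => mul_add _ _ _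

theorem pair_fun_smul (c : AddMonoidAlgebra Qbar G) (a : Qbar) (f : G → Qbar) :
    pair c (a • f) = a * pair c f := by
  unfold pair
  rw [Finsupp.mul_sum]
  refine Finsupp.sum_congr fun x _ => ?_
  rw [Pi.smul_apply, smul_eq_mul]
  ring

theorem pair_fun_sum {ι : Type*} (s : Finset ι) (c : AddMonoidAlgebra Qbar G) (f : ι → G → Qbar) :
    pair c (∑ i ∈ s, f i) = ∑ i ∈ s, pair c (f i) := by
  classical
  induction s using Finset.induction_on with
  | empty =>
    rw [Finset.sum_empty, Finset.sum_empty]
    unfold pair
    simp
  | insert i s hi ih => rw [Finset.sum_insert hi, Finset.sum_insert hi, pair_fun_add, ih]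

theorem pair_eq_sum [Fintype G] (c : AddMonoidAlgebra Qbar G) (f : G → Qbar) :
    pair c f = ∑ x, c.coeff x * f x := by
  unfold pair
  exact Finsupp.sum_fintype _ _ fun _ => zero_mul _

/-- `⟨c, e_y⟩ = c_y`. -/
theorem pair_indicator [DecidableEq G] (c : AddMonoidAlgebra Qbar G) (y : G) :
    pair c (Pi.single y 1) = c.coeff y := by
  induction c using AddMonoidAlgebra.induction_linear with
  | zero => rw [pair_zero, AddMonoidAlgebra.coeff_zero, Finsupp.zero_apply]
  | add a b ha hb => rw [pair_add, ha, hb, AddMonoidAlgebra.coeff_add, Finsupp.add_apply]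
  | single m r =>
    rw [pair_single, AddMonoidAlgebra.coeff_single, Finsupp.single_apply, Pi.single_apply]
    by_cases h : m = y
    · rw [if_pos h, if_pos h, mul_one]
    · rw [if_neg h, if_neg h, mul_zero]

/-- **convolution is dual to comultiplication.**  By bilinearity (`AddMonoidAlgebra.induction_on` or
`Finsupp.induction_linear` in `c` and in `d`) reduce to `c = single x a`, `d = single y b`
(`AddMonoidAlgebra.single_mul_single`). -/
theorem pair_mul {ι : Type} [Fintype ι] (c d : AddMonoidAlgebra Qbar G) (f : G → Qbar)
    (a b : ι → G → Qbar) (hab : ∀ x y, f (x + y) = ∑ i, a i x * b i y) :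
    pair (c * d) f = ∑ i, pair c (a i) * pair d (b i) := by
  induction c using AddMonoidAlgebra.induction_linear with
  | zero => simp only [zero_mul, pair_zero, Finset.sum_const_zero]
  | add x y hx hy =>
    rw [add_mul, pair_add, hx, hy, ← Finset.sum_add_distrib]
    exact Finset.sum_congr rfl fun i _ => by rw [pair_add, add_mul]
  | single m r =>
    induction d using AddMonoidAlgebra.induction_linear with
    | zero => simp only [mul_zero, pair_zero, Finset.sum_const_zero]
    | add x y hx hy =>
      rw [mul_add, pair_add, hx, hy, ← Finset.sum_add_distrib]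
      exact Finset.sum_congr rfl fun i _ => by rw [pair_add, mul_add]
    | single m' r' =>
      rw [AddMonoidAlgebra.single_mul_single, pair_single, hab, Finset.mul_sum]
      refine Finset.sum_congr rfl fun i _ => ?_
      rw [pair_single, pair_single]
      ring

/-- functoriality. -/
theorem pair_mapDomain {G' : Type} [AddCommGroup G'] (φ : G →+ G') (c : AddMonoidAlgebra Qbar G)
    (F : G' → Qbar) :
    pair (AddMonoidAlgebra.mapDomainAlgHom Qbar Qbar φ c) F = pair c (fun x => F (φ x)) := by
  induction c using AddMonoidAlgebra.induction_linear with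
  | zero => rw [map_zero, pair_zero, pair_zero]
  | add x y hx hy => rw [map_add, pair_add, pair_add, hx, hy]
  | single m r =>
    rw [AddMonoidAlgebra.mapDomainAlgHom_apply, AddMonoidAlgebra.mapDomain_single, pair_single,
      pair_single]

end Fermat.Agent.S56.F.Lift

end
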