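/-
S56 / F / Lift / GaugeS : the gauge attached to a comultiplication-closed set of integral functions.
(helper6)      TASK  S56/F-Lift-GaugeS.
-/
import Fermat.Agent.S56.F.Lift.Pair

set_option autoImplicit false

noncomputable section

namespace Fermat.Agent.S56.F.Lift

open Fermat.Agent.S55.Places

variable {G : Type} [AddCommGroup G]

/-! ### the gauge of a set of functions -/

variable (p : ℕ) [Fact p.Prime]

/-- a non empty set of integral valued functions, closed under comultiplication. -/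
structure GSet (S : Set (G → Qbar)) : Prop where
  nonempty : S.Nonempty
  bdd : ∀ f ∈ S, ∀ x, nrm p (f x) ≤ 1
  comul : S19.A.ComulClosed S

/-- `N_S(c) = sup_{f ∈ S} |⟨c, f⟩|`. -/
def gauge (S : Set (G → Qbar)) (c : AddMonoidAlgebra Qbar G) : ℝ :=
  sSup ((fun f => nrm p (pair c f)) '' S)

variable {p} {S : Set (G → Qbar)}

/-- the set is bounded by `max_x |c_x|` (sum over the finite support, `nrm_sum_le`). -/
theorem GSet.bddAbove (hS : GSet p S) (c : AddMonoidAlgebra Qbar G) :
    BddAbove ((fun f => nrm p (pair c f)) '' S) := by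
  refine ⟨∑ x ∈ c.coeff.support, nrm p (c.coeff x), ?_⟩
  rintro _ ⟨f, hf, rfl⟩
  show nrm p (∑ x ∈ c.coeff.support, c.coeff x * f x) ≤ _
  refine nrm_sum_le p _ _ _ (Finset.sum_nonneg fun x _ => nrm_nonneg p _) fun x hx => ?_
  rw [nrm_mul]
  calc nrm p (c.coeff x) * nrm p (f x) ≤ nrm p (c.coeff x) * 1 :=
        mul_le_mul_of_nonneg_left (hS.bdd f hf x) (nrm_nonneg p _)
    _ = nrm p (c.coeff x) := mul_one _
    _ ≤ ∑ x ∈ c.coeff.support, nrm p (c.coeff x) :=
        Finset.single_le_sum (f := fun x => nrm p (c.coeff x)) (fun y _ => nrm_nonneg p _) hx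

theorem GSet.le_gauge (hS : GSet p S) (c : AddMonoidAlgebra Qbar G) {f : G → Qbar} (hf : f ∈ S) :
    nrm p (pair c f) ≤ gauge p S c :=
  le_csSup (hS.bddAbove c) ⟨f, hf, rfl⟩

theorem GSet.gauge_le (hS : GSet p S) (c : AddMonoidAlgebra Qbar G) {r : ℝ}
    (h : ∀ f ∈ S, nrm p (pair c f) ≤ r) : gauge p S c ≤ r := by
  refine csSup_le (hS.nonempty.image _) ?_
  rintro _ ⟨f, hf, rfl⟩
  exact h f hf

/-- `mul` from `pair_mul` + `comul` + `nrm_sum_le`; `one` from `pair_one` + `bdd`;
`smul`: `Real.sSup_smul_of_nonneg`-like, or two inequalities (for `c ≠ 0` use `c⁻¹`). -/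
theorem GSet.isGauge (hS : GSet p S) : IsGauge p (gauge p S) := by
  have hnn : ∀ a, 0 ≤ gauge p S a := by
    intro a
    obtain ⟨f, hf⟩ := hS.nonempty
    exact (nrm_nonneg p _).trans (hS.le_gauge a hf)
  have hsm : ∀ (c : Qbar) (a : AddMonoidAlgebra Qbar G),
      gauge p S (c • a) ≤ nrm p c * gauge p S a := by
    intro c a
    refine hS.gauge_le _ fun f hf => ?_
    rw [pair_smul, nrm_mul]
    exact mul_le_mul_of_nonneg_left (hS.le_gauge a hf) (nrm_nonneg p _)
  refine ⟨hnn, fun a b => ?_, fun a b => ?_, fun c a => ?_, ?_⟩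
  · refine hS.gauge_le _ fun f hf => ?_
    rw [pair_add]
    exact (nrm_add_le_max p _ _).trans (max_le_max (hS.le_gauge a hf) (hS.le_gauge b hf))
  · refine hS.gauge_le _ fun f hf => ?_
    obtain ⟨ι, _, u, v, hu, hv, huv⟩ := hS.comul f hf
    rw [pair_mul a b f u v huv]
    refine nrm_sum_le p _ _ _ (mul_nonneg (hnn a) (hnn b)) fun i _ => ?_
    rw [nrm_mul]
    exact mul_le_mul (hS.le_gauge a (hu i)) (hS.le_gauge b (hv i)) (nrm_nonneg p _) (hnn a)
  · refine le_antisymm (hsm c a) ?_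
    by_cases hc : c = 0
    · subst hc
      have h0 : nrm p (0 : Qbar) = 0 := (nrm_eq_zero_iff p).mpr rfl
      rw [h0, zero_mul]
      exact hnn _
    · have hpos : 0 < nrm p c := (nrm_pos_iff p).mpr hc
      have h1 := hsm c⁻¹ (c • a)
      rw [smul_smul, inv_mul_cancel₀ hc, one_smul, nrm_inv] at h1
      calc nrm p c * gauge p S a ≤ nrm p c * ((nrm p c)⁻¹ * gauge p S (c • a)) :=
            mul_le_mul_of_nonneg_left h1 hpos.le
        _ = gauge p S (c • a) := by rw [← mul_assoc, mul_inv_cancel₀ hpos.ne', one_mul]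
  · refine hS.gauge_le _ fun f hf => ?_
    rw [pair_one]
    exact hS.bdd f hf 0

end Fermat.Agent.S56.F.Lift

end
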