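/-
S56 / F / Lift / Cond : a very good approximate point is close to a point ("conductor trick").  (helper6)
TASK  S56/F-Lift-Cond.
-/
import Fermat.Agent.S56.F.Lift.GaugeS
import Fermat.Agent.S56.F.Basic
import Fermat.Agent.S19.A.Lin

set_option autoImplicit false

noncomputable section

namespace Fermat.Agent.S56.F.Lift

open Fermat.Agent.S55.Places

variable {p : ℕ} [Fact p.Prime] {R : Subring Qbar} {Γ : Subgroup GQ} {E : Type} [AddCommGroup E]
  {act : GQ → E → E} {H : Subalgebra R (E → Qbar)}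

/-- `H` spans all functions over `Qbar` (a point separating subalgebra of functions on a finite set;
see `S19/A/Lin/Sep.lean`), so every indicator function is a `Qbar`-combination of finitely many
elements of `H` with coefficients bounded by a common constant. -/
theorem exists_indicator_bound [Finite E] [DecidableEq E] (h : Ord R Γ act H) :
    ∃ (n : ℕ) (b : Fin n → E → Qbar) (lam : E → Fin n → Qbar) (C : ℝ), (∀ i, b i ∈ H) ∧ 1 ≤ C ∧
      (∀ y i, nrm p (lam y i) ≤ C) ∧ ∀ y : E, (Pi.single y 1 : E → Qbar) = ∑ i, lam y i • b i := by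
  have : Fintype E := Fintype.ofFinite E
  have htop : Submodule.span Qbar (H : Set (E → Qbar)) = ⊤ :=
    S19.A.span_eq_top_of_separates (H : Set (E → Qbar)) H.one_mem
      (fun f hf g hg => H.mul_mem hf hg) h.sep
  have hfg : (Submodule.span Qbar (H : Set (E → Qbar))).FG := by
    rw [htop]
    exact Module.Finite.fg_top
  obtain ⟨s', hs', hspan⟩ := (Submodule.fg_span_iff_fg_span_finset_subset _).1 hfg
  obtain ⟨b, hbdef⟩ : ∃ b : Fin s'.card → E → Qbar, ∀ i, b i = ((s'.equivFin.symm i : s') : E → Qbar) :=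
    ⟨_, fun _ => rfl⟩
  have hrange : Set.range b = (s' : Set (E → Qbar)) := by
    ext f
    constructor
    · rintro ⟨i, rfl⟩
      rw [hbdef]
      exact (s'.equivFin.symm i).2
    · intro hf
      refine ⟨s'.equivFin ⟨f, hf⟩, ?_⟩
      rw [hbdef, Equiv.symm_apply_apply]
  have hmem : ∀ y : E, ∃ c : Fin s'.card → Qbar, ∑ i, c i • b i = (Pi.single y 1 : E → Qbar) := by
    intro y
    rw [← Submodule.mem_span_range_iff_exists_fun, hrange, ← hspan, htop]
    exact Submodule.mem_top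
  choose lam hlam using hmem
  refine ⟨s'.card, b, lam, 1 + ∑ y, ∑ i, nrm p (lam y i), ?_, ?_, ?_, fun y => (hlam y).symm⟩
  · intro i
    rw [hbdef]
    exact hs' (s'.equivFin.symm i).2
  · have : 0 ≤ ∑ y, ∑ i, nrm p (lam y i) :=
      Finset.sum_nonneg fun y _ => Finset.sum_nonneg fun i _ => nrm_nonneg p _
    linarith
  · intro y i
    have h1 : nrm p (lam y i) ≤ ∑ i, nrm p (lam y i) :=
      Finset.single_le_sum (f := fun i => nrm p (lam y i)) (fun i _ => nrm_nonneg p _)
        (Finset.mem_univ i)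
    have h2 : ∑ i, nrm p (lam y i) ≤ ∑ y, ∑ i, nrm p (lam y i) :=
      Finset.single_le_sum (f := fun y => ∑ i, nrm p (lam y i))
        (fun y _ => Finset.sum_nonneg fun i _ => nrm_nonneg p _) (Finset.mem_univ y)
    linarith

/-- **conductor trick.**  With `e_y = ∑ lam y i • b i`, `|lam| ≤ C₀`, `C := C₀²`, `c_y = ⟨c, e_y⟩`:
`|c_y δ_{yy'} - c_y c_y'| = |⟨c, e_y e_y'⟩ - ⟨c, e_y⟩⟨c, e_y'⟩| ≤ η C =: η₁ < 1`.  So `|c_y| |c_y - 1| ≤ η₁`,
which forces `|c_y| ≤ η₁` or (`|c_y| = 1` and `|c_y - 1| ≤ η₁`).  As `|∑ c_y - 1| ≤ η < 1` not all `c_y` are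
small: pick `x'` with `|c_x' - 1| ≤ η₁`; then `|c_y| = |c_y c_x'| ≤ η₁` for `y ≠ x'`, and
`f x' - ⟨c, f⟩ = f x' (1 - c_x') - ∑_{y ≠ x'} c_y f y`. -/
theorem exists_point_of_approx [Finite E] (hR : ∀ r ∈ R, nrm p r ≤ 1) (h : Ord R Γ act H) :
    ∃ C : ℝ, 1 ≤ C ∧ ∀ (c : AddMonoidAlgebra Qbar E) (η : ℝ), η * C < 1 →
      nrm p (pair c 1 - 1) ≤ η →
      (∀ f ∈ H, ∀ g ∈ H, nrm p (pair c (f * g) - pair c f * pair c g) ≤ η) →
      ∃ x' : E, ∀ f ∈ H, nrm p (f x' - pair c f) ≤ η * C := by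
  classical
  have : Fintype E := Fintype.ofFinite E
  obtain ⟨n, b, lam, C₀, hb, hC₀, hlam, hind⟩ := exists_indicator_bound (p := p) h
  refine ⟨C₀ * C₀, by nlinarith, ?_⟩
  intro c η hη h1 hmul
  have hη0 : 0 ≤ η := (nrm_nonneg p _).trans h1
  obtain ⟨η₁, hη₁⟩ : ∃ η₁ : ℝ, η₁ = η * (C₀ * C₀) := ⟨_, rfl⟩
  rw [← hη₁] at hη ⊢
  have hηη₁ : η ≤ η₁ := by
    rw [hη₁]
    have : 1 ≤ C₀ * C₀ := by nlinarith
    nlinarith
  have hη₁0 : 0 ≤ η₁ := hη0.trans hηη₁
  have hone : ∀ β : Qbar, nrm p (β - 1) < 1 → nrm p β = 1 := by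
    intro β hβ
    have e1 : β = (β - 1) + 1 := by ring
    rw [e1, nrm_add_eq_max_of_ne p (by rw [nrm_one]; exact hβ.ne), nrm_one]
    exact max_eq_right hβ.le
  -- bilinearity
  have key : ∀ y y', nrm p (pair c ((Pi.single y 1 : E → Qbar) * Pi.single y' 1)
      - c.coeff y * c.coeff y') ≤ η₁ := by
    intro y y'
    have e1 : pair c ((Pi.single y 1 : E → Qbar) * Pi.single y' 1) - c.coeff y * c.coeff y'
        = ∑ i, ∑ j, lam y i * lam y' j * (pair c (b i * b j) - pair c (b i) * pair c (b j)) := by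
      rw [← pair_indicator c y, ← pair_indicator c y', hind y, hind y', Finset.sum_mul_sum,
        pair_fun_sum, pair_fun_sum, pair_fun_sum, Finset.sum_mul_sum, ← Finset.sum_sub_distrib]
      refine Finset.sum_congr rfl fun i _ => ?_
      rw [pair_fun_sum, ← Finset.sum_sub_distrib]
      refine Finset.sum_congr rfl fun j _ => ?_
      rw [smul_mul_smul_comm, pair_fun_smul, pair_fun_smul, pair_fun_smul]
      ring
    rw [e1]
    refine nrm_sum_le p _ _ _ hη₁0 fun i _ => nrm_sum_le p _ _ _ hη₁0 fun j _ => ?_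
    rw [nrm_mul, nrm_mul, hη₁]
    have a1 := hlam y i
    have a2 := hlam y' j
    have a3 := hmul _ (hb i) _ (hb j)
    have a4 : nrm p (lam y i) * nrm p (lam y' j) ≤ C₀ * C₀ :=
      mul_le_mul a1 a2 (nrm_nonneg p _) (by linarith)
    calc nrm p (lam y i) * nrm p (lam y' j) * nrm p (pair c (b i * b j) - pair c (b i) * pair c (b j))
        ≤ C₀ * C₀ * η := mul_le_mul a4 a3 (nrm_nonneg p _) (by nlinarith)
      _ = η * (C₀ * C₀) := by ring
  have hpz : pair c (0 : E → Qbar) = 0 := by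
    have := pair_fun_smul c 0 (0 : E → Qbar)
    simpa using this
  have hdiag : ∀ y, nrm p (c.coeff y) * nrm p (1 - c.coeff y) ≤ η₁ := by
    intro y
    have e1 : (Pi.single y 1 : E → Qbar) * Pi.single y 1 = Pi.single y 1 := by
      funext x
      by_cases hx : x = y
      · subst hx
        simp
      · simp [Pi.single_eq_of_ne hx]
    have := key y y
    rw [e1, pair_indicator, show c.coeff y - c.coeff y * c.coeff y
      = c.coeff y * (1 - c.coeff y) by ring, nrm_mul] at this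
    exact this
  have hoff : ∀ y y', y ≠ y' → nrm p (c.coeff y) * nrm p (c.coeff y') ≤ η₁ := by
    intro y y' hyy'
    have e1 : (Pi.single y 1 : E → Qbar) * Pi.single y' 1 = 0 := by
      funext x
      by_cases hx : x = y
      · subst hx
        simp [Pi.single_eq_of_ne hyy']
      · simp [Pi.single_eq_of_ne hx]
    have := key y y'
    rw [e1, hpz, zero_sub, nrm_neg, nrm_mul] at this
    exact this
  have claimA : ∀ y, nrm p (c.coeff y) ≤ η₁ ∨ nrm p (c.coeff y - 1) ≤ η₁ := by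
    intro y
    by_cases hlt : nrm p (c.coeff y) < 1
    · left
      have e1 : nrm p (1 - c.coeff y) = 1 := hone _ (by
        rw [show (1 - c.coeff y) - 1 = -(c.coeff y) by ring, nrm_neg]
        exact hlt)
      have := hdiag y
      rwa [e1, mul_one] at this
    · right
      rw [not_lt] at hlt
      rw [nrm_sub_comm]
      calc nrm p (1 - c.coeff y) = 1 * nrm p (1 - c.coeff y) := (one_mul _).symm
        _ ≤ nrm p (c.coeff y) * nrm p (1 - c.coeff y) :=
          mul_le_mul_of_nonneg_right hlt (nrm_nonneg p _)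
        _ ≤ η₁ := hdiag y
  have claimB : ∃ x', nrm p (c.coeff x' - 1) ≤ η₁ := by
    by_contra hcon
    push Not at hcon
    have hall : ∀ y, nrm p (c.coeff y) ≤ η₁ := fun y => (claimA y).resolve_right (not_le.2 (hcon y))
    have hs : pair c 1 = ∑ y, c.coeff y := by
      rw [pair_eq_sum]
      simp
    have h2 : nrm p (pair c 1) ≤ η₁ := by
      rw [hs]
      exact nrm_sum_le p _ _ _ hη₁0 fun y _ => hall y
    have h3 : nrm p (pair c 1) = 1 := hone _ (lt_of_le_of_lt (h1.trans hηη₁) hη)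
    linarith
  obtain ⟨x', hx'⟩ := claimB
  have hx'1 : nrm p (c.coeff x') = 1 := hone _ (lt_of_le_of_lt hx' hη)
  have hsmall : ∀ y, y ≠ x' → nrm p (c.coeff y) ≤ η₁ := by
    intro y hy
    have := hoff y x' hy
    rwa [hx'1, mul_one] at this
  refine ⟨x', fun f hf => ?_⟩
  have e1 : f x' - pair c f = ∑ y, ((if y = x' then 1 else 0) - c.coeff y) * f y := by
    rw [pair_eq_sum]
    simp only [sub_mul, Finset.sum_sub_distrib, ite_mul, one_mul, zero_mul, Finset.sum_ite_eq',
      Finset.mem_univ, if_true]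
  rw [e1]
  refine nrm_sum_le p _ _ _ hη₁0 fun y _ => ?_
  rw [nrm_mul]
  have hf1 := h.nrm_le_one hR hf y
  have h4 : nrm p ((if y = x' then 1 else 0) - c.coeff y) ≤ η₁ := by
    split_ifs with hy
    · rw [hy, nrm_sub_comm]
      exact hx'
    · rw [zero_sub, nrm_neg]
      exact hsmall y hy
  calc nrm p ((if y = x' then 1 else 0) - c.coeff y) * nrm p (f y) ≤ η₁ * 1 :=
        mul_le_mul h4 hf1 (nrm_nonneg p _) hη₁0
    _ = η₁ := mul_one _

end Fermat.Agent.S56.F.Lift

end
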