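/-
S56 / F / Lift / Pow : an approximate point of a group killed by `p` has `p`-th power `≈ 1`.  (helper6)
TASK  S56/F-Lift-Pow.
-/
import Fermat.Agent.S56.F.Lift.GaugeS
import Fermat.Agent.S56.F.Basic

set_option autoImplicit false

noncomputable section

namespace Fermat.Agent.S56.F.Lift

open Fermat.Agent.S55.Places

variable {p : ℕ} [Fact p.Prime] {R : Subring Qbar} {Γ : Subgroup GQ} {E : Type} [AddCommGroup E]
  {act : GQ → E → E} {H : Subalgebra R (E → Qbar)}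

/-- same proof as `S19.A.FlatOrder.nsmul_mem`. -/
theorem nsmul_mem (h : Ord R Γ act H) (n : ℕ) : ∀ f ∈ H, (fun x => f ((n + 1) • x)) ∈ H := by
  induction n with
  | zero =>
    intro f hf
    simpa using hf
  | succ k ih =>
    intro f hf
    obtain ⟨ι, _, a, b, ha, hb, hab⟩ := h.comul f hf
    have h1 : (fun x => f ((k + 1 + 1) • x)) = ∑ i, (fun x => a i ((k + 1) • x)) * b i := by
      funext x
      rw [succ_nsmul, hab, Finset.sum_apply]
      rfl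
    rw [h1]
    exact sum_mem fun i _ => mul_mem (ih _ (ha i)) (hb i)

/-- Induction on `n` (for all `f ∈ H`): with `f (x + y) = ∑ a_i x * b_i y`,
`⟨c^(n+2), f⟩ = ∑ ⟨c^(n+1), a_i⟩ ⟨c, b_i⟩` (`pair_mul`) `≡ ∑ ⟨c, a_i ∘ [n+1]⟩ ⟨c, b_i⟩`
(induction hypothesis, `|⟨c, b_i⟩| ≤ 1`) `≡ ∑ ⟨c, (a_i ∘ [n+1]) * b_i⟩` (`hmul`, `nsmul_mem`)
`= ⟨c, f ∘ [n+2]⟩` (`pair_fun_sum`). -/
theorem pair_pow_sub (hR : ∀ r ∈ R, nrm p r ≤ 1) (h : Ord R Γ act H)
    (c : AddMonoidAlgebra Qbar E) {ρ : ℝ} (hρ0 : 0 ≤ ρ)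
    (hint : ∀ f ∈ H, nrm p (pair c f) ≤ 1)
    (hmul : ∀ f ∈ H, ∀ g ∈ H, nrm p (pair c (f * g) - pair c f * pair c g) ≤ ρ) (n : ℕ) :
    ∀ f ∈ H, nrm p (pair (c ^ (n + 1)) f - pair c (fun x => f ((n + 1) • x))) ≤ ρ := by
  induction n with
  | zero =>
    intro f hf
    have h1 : (fun x => f ((0 + 1) • x)) = f := by
      funext x
      simp
    rw [h1, zero_add, pow_one, sub_self, (nrm_eq_zero_iff p).mpr rfl]
    exact hρ0
  | succ k ih =>
    intro f hf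
    obtain ⟨ι, _, a, b, ha, hb, hab⟩ := h.comul f hf
    have h1 : (fun x => f ((k + 1 + 1) • x)) = ∑ i, (fun x => a i ((k + 1) • x)) * b i := by
      funext x
      rw [succ_nsmul, hab, Finset.sum_apply]
      rfl
    rw [h1, pair_fun_sum, pow_succ, pair_mul (c ^ (k + 1)) c f a b hab, ← Finset.sum_sub_distrib]
    refine nrm_sum_le p _ _ ρ hρ0 fun i _ => ?_
    have h2 : pair (c ^ (k + 1)) (a i) * pair c (b i)
        - pair c ((fun x => a i ((k + 1) • x)) * b i)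
        = (pair (c ^ (k + 1)) (a i) - pair c (fun x => a i ((k + 1) • x))) * pair c (b i)
          - (pair c ((fun x => a i ((k + 1) • x)) * b i)
            - pair c (fun x => a i ((k + 1) • x)) * pair c (b i)) := by ring
    rw [h2]
    refine (nrm_sub_le_max p _ _).trans (max_le ?_ (hmul _ (nsmul_mem h k _ (ha i)) _ (hb i)))
    rw [nrm_mul]
    calc nrm p (pair (c ^ (k + 1)) (a i) - pair c (fun x => a i ((k + 1) • x)))
          * nrm p (pair c (b i)) ≤ ρ * 1 :=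
          mul_le_mul (ih _ (ha i)) (hint _ (hb i)) (nrm_nonneg p _) hρ0
      _ = ρ := mul_one ρ

/-- `n + 1 = p`: `f (p • x) = f 0`, `⟨c, const (f 0)⟩ = f 0 * ⟨c, 1⟩ ≡ f 0 = ⟨1, f⟩`. -/
theorem pair_pow_prime_sub_one (hR : ∀ r ∈ R, nrm p r ≤ 1) (h : Ord R Γ act H)
    (hpE : ∀ x : E, p • x = 0) (c : AddMonoidAlgebra Qbar E) {ρ : ℝ} (hρ0 : 0 ≤ ρ)
    (hint : ∀ f ∈ H, nrm p (pair c f) ≤ 1) (hone : nrm p (pair c 1 - 1) ≤ ρ)
    (hmul : ∀ f ∈ H, ∀ g ∈ H, nrm p (pair c (f * g) - pair c f * pair c g) ≤ ρ) :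
    ∀ f ∈ H, nrm p (pair (c ^ p - 1) f) ≤ ρ := by
  intro f hf
  have hp : p - 1 + 1 = p := Nat.sub_add_cancel (Fact.out : p.Prime).one_le
  have h1 := pair_pow_sub hR h c hρ0 hint hmul (p - 1) f hf
  rw [hp] at h1
  have h2 : (fun x => f (p • x)) = f 0 • (1 : E → Qbar) := by
    funext x
    rw [hpE x]
    simp
  rw [h2, pair_fun_smul] at h1
  rw [pair_sub, pair_one]
  have h3 : pair (c ^ p) f - f 0 = (pair (c ^ p) f - f 0 * pair c 1) + f 0 * (pair c 1 - 1) := by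
    ring
  rw [h3]
  refine (nrm_add_le_max p _ _).trans (max_le h1 ?_)
  rw [nrm_mul]
  calc nrm p (f 0) * nrm p (pair c 1 - 1) ≤ 1 * ρ :=
        mul_le_mul (h.nrm_le_one hR hf 0) hone (nrm_nonneg p _) zero_le_one
    _ = ρ := one_mul ρ

end Fermat.Agent.S56.F.Lift

end
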