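/-
S56 / F / Lift / Prod : the order `H ⊗ H` on `E × E`, at the level of gauges.      (helper6)
TASK  S56/F-Lift-Prod.

`h : Ord R Γ act H`, `hR : ∀ r ∈ R, nrm p r ≤ 1`.
`SH H := (H : Set (E → Qbar))`, `S2 H := {(x,y) ↦ f x * g y | f, g ∈ H}`.
`dg, i1, i2 : Qbar[E] →ₐ Qbar[E × E]` are induced by `x ↦ (x,x), (x,0), (0,x)`.
-/
import Fermat.Agent.S56.F.Lift.GaugeS
import Fermat.Agent.S56.F.Basic

set_option autoImplicit false

noncomputable section

namespace Fermat.Agent.S56.F.Lift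

open Fermat.Agent.S55.Places

variable {p : ℕ} [Fact p.Prime] {R : Subring Qbar} {Γ : Subgroup GQ} {E : Type} [AddCommGroup E]
  {act : GQ → E → E} {H : Subalgebra R (E → Qbar)}

/-- the functions `(x, y) ↦ f x * g y`. -/
def S2 (H : Subalgebra R (E → Qbar)) : Set (E × E → Qbar) :=
  {F | ∃ f ∈ H, ∃ g ∈ H, F = fun xy => f xy.1 * g xy.2}

/-- induced by the diagonal. -/
def dg : AddMonoidAlgebra Qbar E →ₐ[Qbar] AddMonoidAlgebra Qbar (E × E) :=
  AddMonoidAlgebra.mapDomainAlgHom Qbar Qbar ((AddMonoidHom.id E).prod (AddMonoidHom.id E))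

/-- induced by `x ↦ (x, 0)`. -/
def i1 : AddMonoidAlgebra Qbar E →ₐ[Qbar] AddMonoidAlgebra Qbar (E × E) :=
  AddMonoidAlgebra.mapDomainAlgHom Qbar Qbar (AddMonoidHom.inl E E)

/-- induced by `x ↦ (0, x)`. -/
def i2 : AddMonoidAlgebra Qbar E →ₐ[Qbar] AddMonoidAlgebra Qbar (E × E) :=
  AddMonoidAlgebra.mapDomainAlgHom Qbar Qbar (AddMonoidHom.inr E E)

/-- `Ord.nrm_le_one`, `h.comul`, `1 ∈ H`. -/
theorem gset_H (hR : ∀ r ∈ R, nrm p r ≤ 1) (h : Ord R Γ act H) :
    GSet p (H : Set (E → Qbar)) := by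
  exact ⟨⟨1, H.one_mem⟩, fun f hf x => h.nrm_le_one hR hf x, h.comul⟩

/-- `f(x+x') g(y+y') = ∑_{i,j} (a_i x a'_j y) (b_i x' b'_j y')` (index type `ι × ι'`,
`Finset.sum_mul_sum`, `Fintype.sum_prod_type`). -/
theorem gset_S2 (hR : ∀ r ∈ R, nrm p r ≤ 1) (h : Ord R Γ act H) : GSet p (S2 H) := by
  refine ⟨⟨_, 1, H.one_mem, 1, H.one_mem, rfl⟩, ?_, ?_⟩
  · rintro _ ⟨f, hf, g, hg, rfl⟩ xy
    show nrm p (f xy.1 * g xy.2) ≤ 1
    rw [nrm_mul]
    exact mul_le_one₀ (h.nrm_le_one hR hf _) (nrm_nonneg p _) (h.nrm_le_one hR hg _)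
  · rintro _ ⟨f, hf, g, hg, rfl⟩
    obtain ⟨ι, _, a, b, ha, hb, hab⟩ := h.comul f hf
    obtain ⟨ι', _, a', b', ha', hb', hab'⟩ := h.comul g hg
    refine ⟨ι × ι', inferInstance, fun ij xy => a ij.1 xy.1 * a' ij.2 xy.2,
      fun ij xy => b ij.1 xy.1 * b' ij.2 xy.2,
      fun ij => ⟨_, ha ij.1, _, ha' ij.2, rfl⟩, fun ij => ⟨_, hb ij.1, _, hb' ij.2, rfl⟩, ?_⟩
    intro x y
    show f (x.1 + y.1) * g (x.2 + y.2) = _
    rw [hab, hab', Finset.sum_mul_sum, Fintype.sum_prod_type]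
    refine Finset.sum_congr rfl (fun i _ => Finset.sum_congr rfl (fun j _ => ?_))
    ring

theorem pair_dg (c : AddMonoidAlgebra Qbar E) (f g : E → Qbar) :
    pair (dg c) (fun xy : E × E => f xy.1 * g xy.2) = pair c (f * g) := by
  rw [dg, pair_mapDomain]
  rfl

/-- bilinearity reduces to `c = single x a`, `d = single y b`:
`i1 (single x a) * i2 (single y b) = single (x, y) (a * b)`. -/
theorem pair_i1_mul_i2 (c d : AddMonoidAlgebra Qbar E) (f g : E → Qbar) :
    pair (i1 c * i2 d) (fun xy : E × E => f xy.1 * g xy.2) = pair c f * pair d g := by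
  induction c using AddMonoidAlgebra.induction_linear with
  | zero => rw [map_zero, zero_mul, pair_zero, pair_zero, zero_mul]
  | add c c' ih ih' => rw [map_add, add_mul, pair_add, pair_add, add_mul, ih, ih']
  | single x a =>
    induction d using AddMonoidAlgebra.induction_linear with
    | zero => rw [map_zero, mul_zero, pair_zero, pair_zero, mul_zero]
    | add d d' ih ih' => rw [map_add, mul_add, pair_add, pair_add, mul_add, ih, ih']
    | single y b =>
      have e1 : i1 (AddMonoidAlgebra.single x a) = AddMonoidAlgebra.single ((x, 0) : E × E) a := by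
        rw [i1, AddMonoidAlgebra.mapDomainAlgHom_apply, AddMonoidAlgebra.mapDomain_single]
        rfl
      have e2 : i2 (AddMonoidAlgebra.single y b) = AddMonoidAlgebra.single ((0, y) : E × E) b := by
        rw [i2, AddMonoidAlgebra.mapDomainAlgHom_apply, AddMonoidAlgebra.mapDomain_single]
        rfl
      rw [e1, e2, AddMonoidAlgebra.single_mul_single, pair_single, pair_single, pair_single]
      show a * b * (f (x + 0) * g (0 + y)) = _
      rw [add_zero, zero_add]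
      ring

theorem gauge_dg_le (hR : ∀ r ∈ R, nrm p r ≤ 1) (h : Ord R Γ act H)
    (c : AddMonoidAlgebra Qbar E) :
    gauge p (S2 H) (dg c) ≤ gauge p (H : Set (E → Qbar)) c := by
  refine (gset_S2 hR h).gauge_le _ ?_
  rintro _ ⟨f, hf, g, hg, rfl⟩
  rw [pair_dg]
  exact (gset_H hR h).le_gauge c (H.mul_mem hf hg)

theorem gauge_i1_mul_i2_le (hR : ∀ r ∈ R, nrm p r ≤ 1) (h : Ord R Γ act H)
    (c d : AddMonoidAlgebra Qbar E) :
    gauge p (S2 H) (i1 c * i2 d) ≤
      gauge p (H : Set (E → Qbar)) c * gauge p (H : Set (E → Qbar)) d := by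
  refine (gset_S2 hR h).gauge_le _ ?_
  rintro _ ⟨f, hf, g, hg, rfl⟩
  rw [pair_i1_mul_i2, nrm_mul]
  exact mul_le_mul ((gset_H hR h).le_gauge c hf) ((gset_H hR h).le_gauge d hg) (nrm_nonneg p _)
    ((nrm_nonneg p _).trans ((gset_H hR h).le_gauge c hf))

end Fermat.Agent.S56.F.Lift

end
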