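/-
S56 / F / Lift / Main : the LIFTING LEMMA (Fontaine).      (helper6)

`h : Ord R Γ act H` on a finite group `E` killed by `p`.  Let `c ∈ Qbar[E]`, `u f := ⟨c, f⟩ = ∑ c_x f(x)`.
If `u` is integral on `H` and multiplicative modulo `ρ`, `ρ^(p-1) < |p|^p` (i.e. `u` is a point of the
group scheme with values in `O/𝔞^m`, `m > p/(p-1)`), then there is a point `x' ∈ E` with
`f x' ≡ u f` modulo `ρ/|p|` for all `f ∈ H`.
-/
import Fermat.Agent.S56.F.Lift.Prod
import Fermat.Agent.S56.F.Lift.Rigid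
import Fermat.Agent.S56.F.Lift.Pow
import Fermat.Agent.S56.F.Lift.Cond
import Fermat.Agent.S55.Places.PthPower

set_option autoImplicit false

noncomputable section

namespace Fermat.Agent.S56.F.Lift

open Fermat.Agent.S55.Places

variable {p : ℕ} [Fact p.Prime] {R : Subring Qbar} {Γ : Subgroup GQ} {E : Type} [AddCommGroup E]
  {act : GQ → E → E} {H : Subalgebra R (E → Qbar)}

private theorem mul_le_aux {a b r : ℝ} (ha : a ≤ r) (hb : b ≤ 1) (hb0 : 0 ≤ b) (hr : 0 ≤ r) :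
    a * b ≤ r :=
  (mul_le_mul_of_nonneg_right ha hb0).trans (mul_le_of_le_one_right hr hb)

theorem lifting [Finite E] (hR : ∀ r ∈ R, nrm p r ≤ 1) (h : Ord R Γ act H)
    (hpE : ∀ x : E, p • x = 0) (c : AddMonoidAlgebra Qbar E) {ρ : ℝ}
    (hρ : ρ ^ (p - 1) < nrm p (p : Qbar) ^ p)
    (hint : ∀ f ∈ H, nrm p (pair c f) ≤ 1) (hone : nrm p (pair c 1 - 1) ≤ ρ)
    (hmul : ∀ f ∈ H, ∀ g ∈ H, nrm p (pair c (f * g) - pair c f * pair c g) ≤ ρ) :
    ∃ x' : E, ∀ f ∈ H, nrm p (f x' - pair c f) ≤ ρ / nrm p (p : Qbar) := by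
  have hp : p.Prime := Fact.out
  have hρ0 : 0 ≤ ρ := (nrm_nonneg p _).trans hone
  have hpp : 0 < nrm p (p : Qbar) := (nrm_pos_iff p).2 (by exact_mod_cast hp.ne_zero)
  have hp1 : nrm p (p : Qbar) < 1 := by
    rw [nrm_natCast_self]
    exact inv_lt_one_of_one_lt₀ (by exact_mod_cast hp.one_lt)
  set N := gauge p (H : Set (E → Qbar)) with hNdef
  set N2 := gauge p (S2 H) with hN2def
  have gH := gset_H hR h
  have gS := gset_S2 hR h
  have hN : IsGauge p N := gH.isGauge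
  have hN2 : IsGauge p N2 := gS.isGauge
  set κ := ρ / nrm p (p : Qbar) with hκdef
  have hκ0 : 0 ≤ κ := div_nonneg hρ0 hpp.le
  have hρκ : ρ ≤ κ := by
    rw [hκdef, le_div_iff₀ hpp]
    exact mul_le_of_le_one_right hρ0 hp1.le
  have hκ : κ ^ (p - 1) < nrm p (p : Qbar) := by
    rw [hκdef, div_pow, div_lt_iff₀ (pow_pos hpp _), ← pow_succ']
    have : p - 1 + 1 = p := Nat.sub_add_cancel hp.one_le
    rwa [this]
  have hκ1 : κ < 1 := by
    by_contra hcon
    have h1 : (1 : ℝ) ≤ κ ^ (p - 1) := one_le_pow₀ (not_lt.1 hcon)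
    linarith
  -- step 1
  have hc1 : N c ≤ 1 := gH.gauge_le c hint
  have hcp : N (c ^ p - 1) ≤ ρ :=
    gH.gauge_le _ (pair_pow_prime_sub_one hR h hpE c hρ0 hint hone hmul)
  -- step 2
  obtain ⟨C, hC1, hC⟩ := exists_point_of_approx (p := p) hR h
  have hC0 : 0 < C := lt_of_lt_of_le one_pos hC1
  rcases hρ0.eq_or_lt with hρz | hρpos
  · -- `ρ = 0`
    obtain ⟨x', hx'⟩ := hC c 0 (by simp) (by rw [hρz]; exact hone)
      (fun f hf g hg => by rw [hρz]; exact hmul f hf g hg)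
    refine ⟨x', fun f hf => ?_⟩
    have := hx' f hf
    rw [zero_mul] at this
    exact this.trans hκ0
  set η := ρ / C with hηdef
  have hη0 : 0 < η := div_pos hρpos hC0
  have hηC : η / nrm p (p : Qbar) * C = κ := by
    rw [hηdef, hκdef]; field_simp
  obtain ⟨c', hc'1, hc'c, hc'p⟩ := hN.newton hc1 hρ hcp hη0
  -- step 3
  have hi1 : ∀ w v : AddMonoidAlgebra Qbar E, N2 (i1 w * i2 v) ≤ N w * N v :=
    fun w v => gauge_i1_mul_i2_le hR h w v
  have hdg : ∀ w : AddMonoidAlgebra Qbar E, N2 (dg w) ≤ N w := fun w => gauge_dg_le hR h w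
  have hcc' : N (c - c') ≤ κ := by rw [hN.sub_comm]; exact hc'c
  have ha1 : N2 (dg c') ≤ 1 := (hdg c').trans hc'1
  have hb1 : N2 (i1 c' * i2 c') ≤ 1 :=
    (hi1 c' c').trans (mul_le_one₀ hc'1 (hN.nonneg _) hc'1)
  have hap : N2 ((dg c') ^ p - 1) ≤ η := by
    have : (dg c') ^ p - 1 = dg (c' ^ p - 1) := by rw [map_sub, map_pow, map_one]
    rw [this]
    exact (hdg _).trans hc'p
  have hc'pp : N (c' ^ p) ≤ 1 := hN.pow_le_one hc'1 p
  have hbp : N2 ((i1 c' * i2 c') ^ p - 1) ≤ η := by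
    have : (i1 c' * i2 c') ^ p - 1 =
        i1 (c' ^ p - 1) * i2 (c' ^ p) + i1 1 * i2 (c' ^ p - 1) := by
      simp only [map_sub, map_pow, map_one, mul_pow]; ring
    rw [this]
    refine (hN2.add _ _).trans (max_le ?_ ?_)
    · exact (hi1 _ _).trans (mul_le_aux hc'p hc'pp (hN.nonneg _) hη0.le)
    · refine (hi1 _ _).trans ?_
      rw [mul_comm]
      exact mul_le_aux hc'p hN.one (hN.nonneg _) hη0.le
  have hab : N2 (dg c' - i1 c' * i2 c') ≤ κ := by
    have : dg c' - i1 c' * i2 c' = (dg (c' - c) + (dg c - i1 c * i2 c)) +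
        (i1 (c - c') * i2 c + i1 c' * i2 (c - c')) := by
      simp only [map_sub]; ring
    rw [this]
    refine (hN2.add _ _).trans (max_le ((hN2.add _ _).trans (max_le ?_ ?_))
      ((hN2.add _ _).trans (max_le ?_ ?_)))
    · exact (hdg _).trans hc'c
    · refine (gS.gauge_le _ ?_).trans hρκ
      rintro F ⟨f, hf, g, hg, rfl⟩
      rw [pair_sub, pair_dg, pair_i1_mul_i2]
      exact hmul f hf g hg
    · exact (hi1 _ _).trans (mul_le_aux hcc' hc1 (hN.nonneg _) hκ0)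
    · refine (hi1 _ _).trans ?_
      rw [mul_comm]
      exact mul_le_aux hcc' hc'1 (hN.nonneg _) hκ0
  have hrig := hN2.rigid ha1 hb1 hκ hab hap hbp
  set η' := η / nrm p (p : Qbar) with hη'def
  have hη'0 : 0 ≤ η' := div_nonneg hη0.le hpp.le
  have hη'κ : η' ≤ κ := by
    rw [← hηC]
    exact le_mul_of_one_le_right hη'0 hC1
  have hmul' : ∀ f ∈ H, ∀ g ∈ H, nrm p (pair c' (f * g) - pair c' f * pair c' g) ≤ η' := by
    intro f hf g hg
    have h1 := gS.le_gauge (dg c' - i1 c' * i2 c') (f := fun xy : E × E => f xy.1 * g xy.2)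
      ⟨f, hf, g, hg, rfl⟩
    rw [pair_sub, pair_dg, pair_i1_mul_i2] at h1
    exact h1.trans hrig
  -- step 4
  have hclose : ∀ f ∈ H, nrm p (pair c' f - pair c f) ≤ κ := by
    intro f hf
    rw [← pair_sub]
    exact (gH.le_gauge _ hf).trans hc'c
  have hone' : nrm p (pair c' 1 - 1) ≤ η' := by
    set t := pair c' 1 with ht
    have h1 : nrm p (t - 1) < 1 := by
      have : t - 1 = (t - pair c 1) + (pair c 1 - 1) := by ring
      rw [this]
      exact lt_of_le_of_lt (nrm_add_le_max p _ _)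
        (max_lt (lt_of_le_of_lt (hclose 1 H.one_mem) hκ1) (lt_of_le_of_lt (hone.trans hρκ) hκ1))
    have h2 : nrm p t = 1 := nrm_eq_one_of_sub_one_lt h1
    have h3 := hmul' 1 H.one_mem 1 H.one_mem
    rw [one_mul] at h3
    have h4 : t - t * t = -(t * (t - 1)) := by ring
    rw [h4, nrm_neg, nrm_mul, h2, one_mul] at h3
    exact h3
  -- step 5
  obtain ⟨x', hx'⟩ := hC c' η' (by rw [hηC]; exact hκ1) hone' hmul'
  refine ⟨x', fun f hf => ?_⟩
  have : f x' - pair c f = (f x' - pair c' f) + (pair c' f - pair c f) := by ring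
  rw [this]
  refine (nrm_add_le_max p _ _).trans (max_le ?_ (hclose f hf))
  rw [← hηC]
  exact hx' f hf

end Fermat.Agent.S56.F.Lift

end
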