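/-
S56 / F / Lift / Rigid : the rigidity estimate for gauges.   (helper6)      TASK  S56/F-Lift-Rigid.
-/
import Fermat.Agent.S56.F.Lift.Gauge

set_option autoImplicit false

noncomputable section

namespace Fermat.Agent.S56.F.Lift

open Fermat.Agent.S55.Places

private theorem Rigid_expand {A : Type*} [CommRing A] (γ b : A) (n : ℕ) :
    (γ + b) ^ (n + 2) =
      (∑ j ∈ Finset.range n, γ ^ (j + 2) * b ^ (n - j) * (((n + 2).choose (j + 2) : ℕ) : A))
      + ((n + 2 : ℕ) : A) * γ * b ^ (n + 1) + b ^ (n + 2) + γ ^ (n + 2) := by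
  rw [add_pow, Finset.sum_range_succ, Finset.sum_range_succ', Finset.sum_range_succ']
  have h2 : n + 2 - (0 + 1) = n + 1 := by omega
  have h3 : ∑ j ∈ Finset.range n, γ ^ (j + 1 + 1) * b ^ (n + 2 - (j + 1 + 1))
        * (((n + 2).choose (j + 1 + 1) : ℕ) : A)
      = ∑ j ∈ Finset.range n, γ ^ (j + 2) * b ^ (n - j) * (((n + 2).choose (j + 2) : ℕ) : A) := by
    refine Finset.sum_congr rfl fun j _ => ?_
    have h1 : n + 2 - (j + 1 + 1) = n - j := by omega
    rw [h1]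
  rw [h3, h2]
  simp only [Nat.sub_zero, Nat.sub_self, pow_zero, zero_add, pow_one, Nat.choose_zero_right,
    Nat.choose_one_right, Nat.choose_self, Nat.cast_one, mul_one, one_mul]
  ring

variable {p : ℕ} [Fact p.Prime] {A : Type*} [CommRing A] [Algebra Qbar A] {N : A → ℝ}

private theorem Rigid_natCast_mul (hN : IsGauge p N) (c : ℕ) (x : A) :
    N ((c : A) * x) = nrm p (c : Qbar) * N x := by
  rw [← hN.smul, Algebra.smul_def, map_natCast]

/-- **rigidity estimate.**  `γ := a - b`, `g := N γ ≤ κ < 1`.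
`a^p - b^p = ∑_{j=1}^{p} choose p j b^(p-j) γ^j`; multiply by `b` and use `b^p = 1 + e_b`:
`p γ = b (a^p - b^p) - b ∑_{j ≥ 2} choose p j b^(p-j) γ^j - p e_b γ`, hence
`|p| g ≤ max ε (max (|p| g²) (max (g^p) (|p| ε g)))`.  If `1 ≤ ε` the claim is trivial
(`g ≤ κ < 1 ≤ ε/|p|`).  If `ε < 1` and `ε < |p| g` then `g > 0` and each of `|p| g²`, `g^p = g g^(p-1)
≤ g κ^(p-1) < g |p|`, `|p| ε g` is `< |p| g`: contradiction. -/
theorem IsGauge.rigid (hN : IsGauge p N) {a b : A} {ε κ : ℝ} (ha : N a ≤ 1) (hb : N b ≤ 1)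
    (hκ : κ ^ (p - 1) < nrm p (p : Qbar)) (hab : N (a - b) ≤ κ)
    (hap : N (a ^ p - 1) ≤ ε) (hbp : N (b ^ p - 1) ≤ ε) :
    N (a - b) ≤ ε / nrm p (p : Qbar) := by
  have hp := (Fact.out : p.Prime)
  set P := nrm p (p : Qbar) with hP
  have hP0 : 0 < P := by
    rw [hP, nrm_pos_iff]
    exact_mod_cast hp.ne_zero
  have hP1 : P ≤ 1 := nrm_natCast_le_one p p
  set γ := a - b with hγ
  set g := N γ with hg
  have hg0 : 0 ≤ g := hN.nonneg _
  have hε0 : 0 ≤ ε := (hN.nonneg _).trans hap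
  rw [le_div_iff₀ hP0]
  rcases hg0.eq_or_lt with h0 | hgpos
  · rw [← h0, zero_mul]; exact hε0
  have hκ0 : 0 ≤ κ := hg0.trans hab
  have hκ1 : κ < 1 := by
    by_contra hcon
    push Not at hcon
    have : 1 ≤ κ ^ (p - 1) := one_le_pow₀ hcon
    linarith
  have hg1 : g < 1 := hab.trans_lt hκ1
  obtain ⟨n, hn⟩ : ∃ n, p = n + 2 := ⟨p - 2, by have := hp.two_le; omega⟩
  set S : A := ∑ j ∈ Finset.range n, γ ^ (j + 2) * b ^ (n - j) * ((p.choose (j + 2) : ℕ) : A) with hS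
  have hexp : a ^ p = S + (p : A) * γ * b ^ (n + 1) + b ^ p + γ ^ p := by
    have := Rigid_expand γ b n
    rw [← hn] at this
    rw [hS, ← this, hγ, sub_add_cancel]
  have hbp' : b * b ^ (n + 1) = b ^ p := by rw [hn, ← pow_succ']
  have hid : (p : A) * γ = b * ((a ^ p - 1) - (b ^ p - 1)) - b * S - b * γ ^ p
      - (p : A) * (γ * (b ^ p - 1)) := by
    rw [hexp]
    linear_combination (-(p : A) * γ) * hbp'
  have hS_le : N S ≤ P * g ^ 2 := by
    refine hN.sum_le _ _ (by positivity) fun j hj => ?_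
    rw [Finset.mem_range] at hj
    obtain ⟨c, hc⟩ := hp.dvd_choose_self (k := j + 2) (by omega) (by omega)
    rw [mul_comm, Rigid_natCast_mul hN, hc, Nat.cast_mul, nrm_mul]
    have h1 : nrm p (c : Qbar) ≤ 1 := nrm_natCast_le_one p c
    have h2 : N (γ ^ (j + 2) * b ^ (n - j)) ≤ g ^ 2 := by
      refine (hN.mul _ _).trans ?_
      have h3 : N (γ ^ (j + 2)) ≤ g ^ (j + 2) := hN.pow_le γ le_rfl _ (by omega)
      have h4 : g ^ (j + 2) ≤ g ^ 2 := pow_le_pow_of_le_one hg0 hg1.le (by omega)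
      have h5 : N (b ^ (n - j)) ≤ 1 := hN.pow_le_one hb _
      calc N (γ ^ (j + 2)) * N (b ^ (n - j)) ≤ g ^ 2 * 1 :=
            mul_le_mul (h3.trans h4) h5 (hN.nonneg _) (by positivity)
        _ = g ^ 2 := mul_one _
    calc P * nrm p (c : Qbar) * N (γ ^ (j + 2) * b ^ (n - j)) ≤ P * 1 * g ^ 2 :=
          mul_le_mul (mul_le_mul_of_nonneg_left h1 hP0.le) h2 (hN.nonneg _) (by positivity)
      _ = P * g ^ 2 := by ring
  have hbmul : ∀ x : A, ∀ C : ℝ, N x ≤ C → N (b * x) ≤ C := by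
    intro x C hx
    calc N (b * x) ≤ N b * N x := hN.mul _ _
      _ ≤ 1 * N x := mul_le_mul_of_nonneg_right hb (hN.nonneg _)
      _ = N x := one_mul _
      _ ≤ C := hx
  have h1 : N (b * ((a ^ p - 1) - (b ^ p - 1))) ≤ ε :=
    hbmul _ _ ((hN.sub _ _).trans (max_le hap hbp))
  have h2 : N (b * S) ≤ P * g ^ 2 := hbmul _ _ hS_le
  have h3 : N (b * γ ^ p) ≤ g ^ p := hbmul _ _ (hN.pow_le γ le_rfl _ hp.ne_zero)
  have h4 : N ((p : A) * (γ * (b ^ p - 1))) ≤ P * (g * ε) := by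
    rw [Rigid_natCast_mul hN]
    refine mul_le_mul_of_nonneg_left ((hN.mul _ _).trans ?_) hP0.le
    exact mul_le_mul_of_nonneg_left hbp hg0
  have hmain : P * g ≤ max (max (max ε (P * g ^ 2)) (g ^ p)) (P * (g * ε)) := by
    rw [hg, hP, ← Rigid_natCast_mul hN p γ, hid]
    exact (hN.sub _ _).trans (max_le_max ((hN.sub _ _).trans
      (max_le_max ((hN.sub _ _).trans (max_le_max h1 h2)) h3)) h4)
  rw [mul_comm]
  rcases le_max_iff.mp hmain with h | h
  · rcases le_max_iff.mp h with h | h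
    · rcases le_max_iff.mp h with h | h
      · exact h
      · exfalso
        have : g ≤ g ^ 2 := le_of_mul_le_mul_left h hP0
        nlinarith
    · exfalso
      have h5 : g ^ p = g * g ^ (p - 1) := by rw [← pow_succ', Nat.sub_add_cancel hp.one_le]
      have h6 : g ^ (p - 1) ≤ κ ^ (p - 1) := pow_le_pow_left₀ hg0 hab _
      nlinarith
  · have h5 : g ≤ g * ε := le_of_mul_le_mul_left h hP0
    have h6 : 1 ≤ ε := by
      by_contra hc
      push Not at hc
      nlinarith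
    nlinarith

end Fermat.Agent.S56.F.Lift

end
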